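import Mathlib

/-!
# Hyperbolic three-space with the action of `GL₂(ℂ)`

A point `(z, y)` corresponds to the positive Hermitian matrix
`y⁻¹ [[|z|² + y², z], [z̄, 1]]` of determinant one, on which `g` acts by `P ↦ g P gᴴ`, rescaled.
-/

noncomputable section

open Matrix MeasureTheory
open scoped ComplexConjugate ComplexOrder

namespace Fermat.Agent.ResidualThree

/-- Hyperbolic three-space in upper half-space coordinates. -/
@[ext]
structure H3 where
  /-- The horizontal coordinate. -/
  z : ℂ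
  /-- The height, which is positive. -/
  y : ℝ
  y_pos : 0 < y

namespace H3

instance : TopologicalSpace H3 := .induced (fun p : H3 => (p.z, p.y)) inferInstance

instance : MeasurableSpace H3 := .comap (fun p : H3 => (p.z, p.y)) inferInstance

/-- The base point. -/
def base : H3 := ⟨0, 1, one_pos⟩

/-- The Hermitian matrix of determinant one attached to a point. -/
def toMat (p : H3) : Matrix (Fin 2) (Fin 2) ℂ :=
  !![((Complex.normSq p.z + p.y ^ 2) / p.y : ℝ), p.z / (p.y : ℂ);
    conj p.z / (p.y : ℂ), ((1 / p.y : ℝ) : ℂ)]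

theorem det_toMat (p : H3) : p.toMat.det = 1 := by
  have hy : (p.y : ℂ) ≠ 0 := by exact_mod_cast p.y_pos.ne'
  rw [toMat, Matrix.det_fin_two]
  simp only [Matrix.of_apply, Matrix.cons_val', Matrix.cons_val_zero, Matrix.cons_val_one,
    Matrix.empty_val', Matrix.cons_val_fin_one]
  push_cast
  rw [Complex.normSq_eq_conj_mul_self]
  field_simp
  ring

theorem posDef_toMat (p : H3) : p.toMat.PosDef := by
  have hy : (p.y : ℂ) ≠ 0 := by exact_mod_cast p.y_pos.ne'
  let B : Matrix (Fin 2) (Fin 2) ℂ := !![(p.y : ℂ), p.z; 0, 1]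
  have hB : p.toMat = ((1 / p.y : ℝ) : ℂ) • (B * Bᴴ) := by
    ext i j
    fin_cases i <;> fin_cases j <;>
      (simp [toMat, B, Matrix.vecMul, dotProduct, Matrix.conjTranspose_apply, Fin.sum_univ_two,
        Complex.normSq_eq_conj_mul_self]
       <;> field_simp <;> ring)
  have hu : IsUnit B := by
    rw [Matrix.isUnit_iff_isUnit_det, Matrix.det_fin_two]
    simp [B, isUnit_iff_ne_zero, hy]
  rw [hB]
  refine Matrix.PosDef.smul ?_ (by
    rw [Complex.lt_def]; simp [p.y_pos])
  exact Matrix.PosDef.mul_conjTranspose_self B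
    (Matrix.vecMul_injective_iff_isUnit.mpr hu)

/-- The point attached to a Hermitian positive definite matrix, up to scaling. -/
def ofMat (M : Matrix (Fin 2) (Fin 2) ℂ) (h : M.PosDef) : H3 :=
  ⟨M 0 1 / M 1 1, Real.sqrt M.det.re / (M 1 1).re, by
    have h1 := Complex.lt_def.mp (h.diag_pos (i := (1 : Fin 2)))
    have h2 := Complex.lt_def.mp h.det_pos
    simp only [Complex.zero_re] at h1 h2
    exact div_pos (Real.sqrt_pos.mpr h2.1) h1.1⟩

theorem ofMat_congr {M M' : Matrix (Fin 2) (Fin 2) ℂ} (h : M.PosDef) (h' : M'.PosDef) (e : M = M') :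
    ofMat M h = ofMat M' h' := by subst e; rfl

/-- A positive definite matrix is the square root of its determinant times the matrix of its
point. -/
theorem smul_toMat_ofMat (M : Matrix (Fin 2) (Fin 2) ℂ) (h : M.PosDef) :
    ((Real.sqrt M.det.re : ℝ) : ℂ) • (ofMat M h).toMat = M := by
  have h1 := Complex.lt_def.mp (h.diag_pos (i := (1 : Fin 2)))
  have h2 := Complex.lt_def.mp h.det_pos
  simp only [Complex.zero_re, Complex.zero_im] at h1 h2
  have he : M.IsHermitian := h.1
  have h11 : M 1 1 = ((M 1 1).re : ℂ) := Complex.ext rfl (by simp [← h1.2])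
  have h00 : M 0 0 = ((M 0 0).re : ℂ) := by
    have := Complex.lt_def.mp (h.diag_pos (i := (0 : Fin 2)))
    exact Complex.ext rfl (by simpa using this.2.symm)
  have h10 : M 1 0 = conj (M 0 1) := (he.apply 1 0).symm
  set s := Real.sqrt M.det.re with hs
  set a := (M 0 0).re
  set d := (M 1 1).re with hd
  have hd0 : (d : ℂ) ≠ 0 := by exact_mod_cast h1.1.ne'
  have hs0 : (s : ℂ) ≠ 0 := by exact_mod_cast (Real.sqrt_pos.mpr h2.1).ne'
  have hsq : ((s : ℂ)) ^ 2 = M.det := by
    rw [← Complex.ofReal_pow, hs, Real.sq_sqrt h2.1.le]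
    exact Complex.ext rfl (by simp [← h2.2])
  rw [Matrix.det_fin_two, h00, h10, h11] at hsq
  ext i j
  fin_cases i <;> fin_cases j <;>
    simp only [Matrix.smul_apply, smul_eq_mul, toMat, ofMat, Matrix.of_apply, Matrix.cons_val',
      Matrix.cons_val_zero, Matrix.cons_val_one, Matrix.empty_val', Matrix.cons_val_fin_one,
      Fin.isValue, Fin.zero_eta, Fin.mk_one, ← hs, ← hd]
  · rw [h00, h11]
    push_cast
    rw [Complex.normSq_eq_conj_mul_self, map_div₀, Complex.conj_ofReal]
    field_simp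
    linear_combination hsq
  · rw [h11]; push_cast; field_simp
  · rw [h10, h11, map_div₀, Complex.conj_ofReal]; push_cast; field_simp
  · rw [h11]; push_cast; field_simp

/-- The point of a positive multiple of the matrix of a point is that point. -/
theorem ofMat_smul_toMat (p : H3) {c : ℝ} (hc : 0 < c) (h : ((c : ℂ) • p.toMat).PosDef) :
    ofMat ((c : ℂ) • p.toMat) h = p := by
  have hy : (p.y : ℂ) ≠ 0 := by exact_mod_cast p.y_pos.ne'
  have hc' : (c : ℂ) ≠ 0 := by exact_mod_cast hc.ne'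
  apply H3.ext
  · simp only [ofMat, Matrix.smul_apply, smul_eq_mul, toMat, Matrix.of_apply, Matrix.cons_val',
      Matrix.cons_val_zero, Matrix.cons_val_one, Matrix.empty_val', Matrix.cons_val_fin_one]
    push_cast
    field_simp
  · have hd : ((c : ℂ) • p.toMat).det = ((c ^ 2 : ℝ) : ℂ) := by
      rw [Matrix.det_smul, p.det_toMat]; simp
    have h11 : (((c : ℂ) • p.toMat) 1 1).re = c / p.y := by
      rw [show ((c : ℂ) • p.toMat) 1 1 = ((c / p.y : ℝ) : ℂ) by simp [toMat, div_eq_mul_inv],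
        Complex.ofReal_re]
    simp only [ofMat, hd, h11, Complex.ofReal_re]
    rw [Real.sqrt_sq hc.le]
    have := p.y_pos
    field_simp

theorem posDef_conj (g : GL (Fin 2) ℂ) {M : Matrix (Fin 2) (Fin 2) ℂ} (h : M.PosDef) :
    ((g : Matrix (Fin 2) (Fin 2) ℂ) * M * (g : Matrix (Fin 2) (Fin 2) ℂ)ᴴ).PosDef :=
  h.mul_mul_conjTranspose_same (Matrix.vecMul_injective_iff_isUnit.mpr g.isUnit)

instance : SMul (GL (Fin 2) ℂ) H3 := ⟨fun g p => ofMat _ (posDef_conj g p.posDef_toMat)⟩

theorem smul_def (g : GL (Fin 2) ℂ) (p : H3) : g • p = ofMat _ (posDef_conj g p.posDef_toMat) := rfl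

instance : MulAction (GL (Fin 2) ℂ) H3 where
  one_smul p := by
    rw [smul_def, ofMat_congr _ (M' := ((1 : ℝ) : ℂ) • p.toMat)
      (by simpa using p.posDef_toMat) (by simp)]
    exact ofMat_smul_toMat p one_pos _
  mul_smul g g' p := by
    set M : Matrix (Fin 2) (Fin 2) ℂ :=
      (g' : Matrix (Fin 2) (Fin 2) ℂ) * p.toMat * (g' : Matrix (Fin 2) (Fin 2) ℂ)ᴴ
    have hM : M.PosDef := posDef_conj g' p.posDef_toMat
    have hpos : 0 < M.det.re := by simpa using (Complex.lt_def.mp hM.det_pos).1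
    have hs := Real.sqrt_pos.mpr hpos
    have key := smul_toMat_ofMat M hM
    set q := g' • p with hq
    have hq' : q = ofMat M hM := rfl
    rw [← hq'] at key
    set N : Matrix (Fin 2) (Fin 2) ℂ :=
      (g : Matrix (Fin 2) (Fin 2) ℂ) * q.toMat * (g : Matrix (Fin 2) (Fin 2) ℂ)ᴴ with hN
    have hNp : N.PosDef := posDef_conj g q.posDef_toMat
    have hpos' : 0 < N.det.re := by simpa using (Complex.lt_def.mp hNp.det_pos).1
    have key' := smul_toMat_ofMat N hNp
    have e : ((g * g' : GL (Fin 2) ℂ) : Matrix (Fin 2) (Fin 2) ℂ) * p.toMat *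
        ((g * g' : GL (Fin 2) ℂ) : Matrix (Fin 2) (Fin 2) ℂ)ᴴ =
        ((Real.sqrt M.det.re * Real.sqrt N.det.re : ℝ) : ℂ) • (ofMat N hNp).toMat := by
      rw [Complex.ofReal_mul, mul_smul, key', hN, ← Matrix.smul_mul, ← Matrix.mul_smul, key]
      simp only [M, Units.val_mul, Matrix.conjTranspose_mul, Matrix.mul_assoc]
    rw [smul_def, ofMat_congr _ ((posDef_toMat _).smul (by
      rw [Complex.lt_def]; simp [mul_pos hs (Real.sqrt_pos.mpr hpos')])) e]
    exact ofMat_smul_toMat _ (mul_pos hs (Real.sqrt_pos.mpr hpos')) _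

/-- The hyperbolic cosine of the distance. -/
def coshDist (p q : H3) : ℝ :=
  (Complex.normSq (p.z - q.z) + p.y ^ 2 + q.y ^ 2) / (2 * p.y * q.y)

/-- The invariant measure `dz dy / y³`. -/
def vol : Measure H3 :=
  Measure.comap (fun p : H3 => (p.z, p.y))
    (((volume : Measure ℂ).prod (volume.restrict (Set.Ioi (0 : ℝ)))).withDensity
      fun q => ENNReal.ofReal (q.2 ^ 3)⁻¹)

end H3

end Fermat.Agent.ResidualThree
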