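import Mathlib
import Fermat.Prelude.Def_EllipticCurve_FrobeniusTrace
import Fermat.Prelude.Def_FLTPrelim_Modularity
import Fermat.Prelude.Def_FLTPrelim_Ramification
import Fermat.Prelude.Def_GaloisRep_ModThreeCyclotomic
import Fermat.Prelude.Def_ModularForm_EisensteinChiNegThree
import Fermat.Agent.ResidualThree.H3

/-!
# Interfaces between the steps of the Langlands–Tunnell argument

`BianchiDatum ρ n₀` is the output of the cubic descent and the input of the quadratic descent;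
`WeightOneData ρ N` is the output of the quadratic descent and the input of `WeightTwo/Main`;
`StrongWeightOne` also records the lifted traces and is used by `WeightOneLift`.
-/

noncomputable section

open Matrix MeasureTheory CongruenceSubgroup EisensteinWeightOne
open scoped MatrixGroups ModularForm

namespace Fermat.Agent.ResidualThree

local notation "Γℚ" => (AlgebraicClosure ℚ ≃ₐ[ℚ] AlgebraicClosure ℚ)

/-- The Bessel function `K₀`. -/
def besselK0 (t : ℝ) : ℝ := ∫ u in Set.Ioi (0 : ℝ), Real.exp (-(t * Real.cosh u))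

/-- Horospherical transform of a radial kernel `k(cosh distance)`. -/
def abelTransform (k : ℝ → ℂ) (s : ℝ) : ℂ :=
  2 * (Real.pi : ℂ) * ∫ u in Set.Ioi (Real.cosh s), k u

/-- The character of radial kernels at spectral parameter zero. -/
def sphZero (k : ℝ → ℂ) : ℂ := ∫ s, abelTransform k s

/-- `ω = (-1 + √-3) / 2` in `ℂ`. -/
def omegaC : ℂ := ⟨-1 / 2, Real.sqrt 3 / 2⟩

/-- `√-3` inside `ℂ`. -/
def sqrtNegThree : ℂ := ⟨0, Real.sqrt 3⟩

/-- The Eisenstein integers, as pairs. -/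
abbrev Eis3 : Type := ℤ × ℤ

namespace Eis3

/-- The complex number of an Eisenstein integer. -/
def toC (x : Eis3) : ℂ := (x.1 : ℂ) + (x.2 : ℂ) * omegaC

/-- The norm. -/
def norm (x : Eis3) : ℕ := (x.1 ^ 2 - x.1 * x.2 + x.2 ^ 2).natAbs

/-- Multiplication. -/
def mul (x y : Eis3) : Eis3 :=
  (x.1 * y.1 - x.2 * y.2, x.1 * y.2 + x.2 * y.1 - x.2 * y.2)

/-- Divisibility. -/
def dvd (x y : Eis3) : Prop := ∃ z, mul x z = y

/-- A prime element of `ℤ[ω]`. -/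
def IsPrimeElt (x : Eis3) : Prop :=
  1 < x.norm ∧ ∀ y z, dvd x (mul y z) → dvd x y ∨ dvd x z

end Eis3

/-- A complex matrix with entries in `ℤ[ω]`, unit determinant and lower left entry divisible
by `n`. -/
def IsBianchiGamma0 (n : ℕ) (g : GL (Fin 2) ℂ) : Prop :=
  ∃ e : Fin 2 → Fin 2 → Eis3, (∀ i j, (g : Matrix (Fin 2) (Fin 2) ℂ) i j = (e i j).toC) ∧
    ‖(g : Matrix (Fin 2) (Fin 2) ℂ).det‖ = 1 ∧ Eis3.dvd ((n : ℤ), 0) (e 1 0)

/-- An element of `ℚ(√-3)`, as a complex number. -/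
def IsKElement (w : ℂ) : Prop := ∃ (x : Eis3) (m : ℕ), 0 < m ∧ w = x.toC / (m : ℂ)

/-- The lifted trace of an element of `GL₂(𝔽₃)` lying in the quaternion group: `2` at `1`, `-2` at
`-1` and `0` elsewhere. -/
def quatTrace (g : GL (Fin 2) (ZMod 3)) : ℤ :=
  if g = 1 then 2 else if (g : Matrix (Fin 2) (Fin 2) (ZMod 3)) = -1 then -2 else 0

/-- Output of the cubic descent: a cusp form on hyperbolic 3-space attached to `ρ|ℚ(√-3)`. -/
structure BianchiDatum (ρ : Γℚ →* GL (Fin 2) (ZMod 3)) (n₀ : ℕ) : Type where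
  /-- the form -/
  F : H3 → ℂ
  /-- coefficient at `x / √-3` -/
  c : Eis3 → ℤ
  continuous : Continuous F
  invariant : ∀ g : GL (Fin 2) ℂ, IsBianchiGamma0 n₀ g → ∀ p, F (g • p) = F p
  expansion : ∀ p : H3, HasSum (fun x : Eis3 => (c x : ℂ) *
      ((p.y * besselK0 (4 * Real.pi * ‖x.toC‖ * p.y / Real.sqrt 3) : ℝ) : ℂ) *
      Complex.exp (2 * (Real.pi : ℂ) * Complex.I *
        ((2 * (x.toC * p.z / sqrtNegThree).re : ℝ) : ℂ))) (F p)
  decay : ∀ g : GL (Fin 2) ℂ, (∀ i j, IsKElement ((g : Matrix (Fin 2) (Fin 2) ℂ) i j)) → ∀ A : ℕ,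
    ∃ C : ℝ, ∀ p : H3, 1 ≤ p.y → ‖F (g • p)‖ ≤ C / p.y ^ A
  eigen : ∀ k : ℝ → ℂ, Continuous k → HasCompactSupport k → ∀ p,
    (∫ q, k (H3.coshDist p q) * F q ∂H3.vol) = sphZero k * F p
  c_zero : c (0, 0) = 0
  c_one : c (1, 0) = 1
  c_unit : ∀ u x : Eis3, u.norm = 1 → c (Eis3.mul u x) = c x
  c_level : ∀ π x : Eis3, π.IsPrimeElt → Eis3.dvd π ((n₀ : ℤ), 0) → c (Eis3.mul π x) = 0
  c_mul : ∀ x y : Eis3, Nat.Coprime x.norm y.norm → c (Eis3.mul x y) = c x * c y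
  c_rec : ∀ π x : Eis3, π.IsPrimeElt → ¬ Eis3.dvd π ((n₀ : ℤ), 0) →
    c (Eis3.mul π (Eis3.mul π x)) = c π * c (Eis3.mul π x) - c x
  c_prime_mul : ∀ π x : Eis3, π.IsPrimeElt → ¬ Eis3.dvd π ((n₀ : ℤ), 0) → ¬ Eis3.dvd π x →
    c (Eis3.mul π x) = c π * c x
  c_bound : ∀ π : Eis3, π.IsPrimeElt → (c π).natAbs ≤ 2
  /-- the finitely many exceptional primes -/
  S : Finset ℕ
  c_split : ∀ (p : ℕ), p.Prime → p ∉ S → p % 3 = 1 → ∀ π : Eis3, π.norm = p →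
    ∀ A : ValuationSubring (AlgebraicClosure ℚ), A.LiesOverPrime p →
      ∀ σ : Γℚ, A.IsFrobeniusAt σ p →
        ((c π : ℤ) : ZMod 3) = (ρ σ : Matrix (Fin 2) (Fin 2) (ZMod 3)).trace ∧
        (ρ σ ^ 4 = 1 → c π = quatTrace (ρ σ)) ∧ (ρ σ ^ 4 ≠ 1 → c π ≠ 0)
  c_inert : ∀ (p : ℕ), p.Prime → p ∉ S → p % 3 = 2 →
    ∀ A : ValuationSubring (AlgebraicClosure ℚ), A.LiesOverPrime p →
      ∀ σ : Γℚ, A.IsFrobeniusAt σ p → c ((p : ℤ), 0) = quatTrace (ρ σ ^ 2)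

/-- A weight-one form of level `N` and character `χ₋₃` which outside finitely many primes has, at
the primes split in `ℚ(√-3)`, eigenvalues satisfying `P` at the Frobenius elements. -/
def HasWeightOneEigenvalues (N : ℕ) (P : ℤ → Γℚ → Prop) : Prop :=
  ∃ g : CuspForm (Gamma1 N) 1, g ≠ 0 ∧
    (∀ γ : SL(2, ℤ), γ ∈ Gamma0 N → (⇑g) ∣[(1 : ℤ)] γ =
      ((chiNegThree ((γ 1 1 % 3).toNat) : ℤ) : ℂ) • (⇑g)) ∧
    ∃ S : Finset ℕ, ∀ p : ℕ, p.Prime → p ∉ S → p % 3 = 1 → ∃ a : ℤ,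
      (∀ n : ℕ, ModularFormClass.qCoeff g (p * n) +
          (if p ∣ n then ModularFormClass.qCoeff g (n / p) else 0) =
        (a : ℂ) * ModularFormClass.qCoeff g n) ∧
      ∀ A : ValuationSubring (AlgebraicClosure ℚ), A.LiesOverPrime p →
        ∀ σ : Γℚ, A.IsFrobeniusAt σ p → P a σ

/-- Output of the quadratic descent: a weight-one form with the traces of `ρ` at split primes. -/
def WeightOneData (ρ : Γℚ →* GL (Fin 2) (ZMod 3)) (N : ℕ) : Prop :=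
  HasWeightOneEigenvalues N fun a σ =>
    ((a : ℤ) : ZMod 3) = (ρ σ : Matrix (Fin 2) (Fin 2) (ZMod 3)).trace

/-- Weight one data in which moreover the lifted traces are recorded where `ρ ^ 4 = 1`. -/
def StrongWeightOne (ρ : Γℚ →* GL (Fin 2) (ZMod 3)) (N : ℕ) : Prop :=
  HasWeightOneEigenvalues N fun a σ =>
    ((a : ℤ) : ZMod 3) = (ρ σ : Matrix (Fin 2) (Fin 2) (ZMod 3)).trace ∧
      (ρ σ ^ 4 = 1 → a = quatTrace (ρ σ))

/-- The strong data give weight one data. -/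
theorem StrongWeightOne.weightOneData {ρ : Γℚ →* GL (Fin 2) (ZMod 3)} {N : ℕ}
    (h : StrongWeightOne ρ N) : WeightOneData ρ N :=
  let ⟨g, hg, hχ, S, hS⟩ := h
  ⟨g, hg, hχ, S, fun p hp hpS h1 =>
    let ⟨a, ha, haT⟩ := hS p hp hpS h1
    ⟨a, ha, fun A hA σ hσ => (haT A hA σ hσ).1⟩⟩

/-- Statement of the quadratic descent: the level gains only a power of `3`,
exactly `3` when `n₀` is prime to `3`. -/
def QuadraticDescent : Prop :=
  ∀ (ρ : Γℚ →* GL (Fin 2) (ZMod 3)), Continuous ρ → Function.Surjective ρ →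
    (∀ σ : Γℚ, Matrix.GeneralLinearGroup.det (ρ σ) =
        WeierstrassCurve.modThreeCyclotomicChar σ) →
    ∀ n₀ : ℕ, 0 < n₀ → BianchiDatum ρ n₀ →
      ∃ a : ℕ, WeightOneData ρ (3 ^ (a + 1) * n₀) ∧ (¬ 3 ∣ n₀ → a = 0)

/-- Inertia at every prime `q ≠ 3` acts through an element of order dividing `3`. -/
def IsUnipotentAwayThree (ρ : Γℚ →* GL (Fin 2) (ZMod 3)) : Prop :=
  ∀ q : ℕ, q.Prime → q ≠ 3 → ∀ A : ValuationSubring (AlgebraicClosure ℚ), A.LiesOverPrime q →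
    ∀ σ ∈ A.inertiaSubgroupIn ℚ, ρ σ ^ 3 = 1

/-- Inertia at `3` of `ℚ(√-3)` acts trivially. -/
def IsUnramifiedThreeOverK (ρ : Γℚ →* GL (Fin 2) (ZMod 3)) : Prop :=
  ∀ A : ValuationSubring (AlgebraicClosure ℚ), A.LiesOverPrime 3 →
    ∀ σ ∈ A.inertiaSubgroupIn ℚ, WeierstrassCurve.modThreeCyclotomicChar σ = 1 → ρ σ = 1

/-- Statement of the cubic descent. -/
def CubicDescent : Prop :=
  ∀ (ρ : Γℚ →* GL (Fin 2) (ZMod 3)), Continuous ρ → Function.Surjective ρ →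
    (∀ σ : Γℚ, Matrix.GeneralLinearGroup.det (ρ σ) =
        WeierstrassCurve.modThreeCyclotomicChar σ) →
    IsUnipotentAwayThree ρ →
    ∃ n₀ : ℕ, 0 < n₀ ∧ (∀ q : ℕ, q.Prime → q ≠ 3 → ¬ q ^ 3 ∣ n₀) ∧
      (IsUnramifiedThreeOverK ρ → ¬ 3 ∣ n₀) ∧ Nonempty (BianchiDatum ρ n₀)

end Fermat.Agent.ResidualThree
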